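/-
T1 / IFT50 (helper50): formal inverse function theorem for multivariate power series.

`F : σ → MvPowerSeries σ R` (`σ` finite) with zero constant coefficients and invertible Jacobian
matrix at the origin.  Then the substitution endomorphism `g ↦ g(F)` of `R⟦σ⟧` is bijective and
there is a two-sided compositional inverse `G`.
-/
import Mathlib

set_option autoImplicit false
set_option linter.unusedSectionVars false

noncomputable section

namespace Fermat.Agent.T1.IFT50

open MvPowerSeries

variable {R : Type*} [CommRing R] {σ : Type*}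

/-! ### Monomials in a family of power series -/

/-- the product `∏ F_i ^ e_i`. -/
def monoPow (F : σ → MvPowerSeries σ R) (e : σ →₀ ℕ) : MvPowerSeries σ R :=
  e.prod fun s n => F s ^ n

theorem monoPow_zero (F : σ → MvPowerSeries σ R) : monoPow F 0 = 1 := by
  simp [monoPow]

theorem monoPow_add (F : σ → MvPowerSeries σ R) (e e' : σ →₀ ℕ) :
    monoPow F (e + e') = monoPow F e * monoPow F e' := by
  classical
  unfold monoPow
  rw [Finsupp.prod_add_index' (by simp) (by intros; rw [pow_add])]

theorem monoPow_single (F : σ → MvPowerSeries σ R) (i : σ) (n : ℕ) :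
    monoPow F (Finsupp.single i n) = F i ^ n := by
  unfold monoPow
  rw [Finsupp.prod_single_index (by simp)]

theorem le_order_monoPow (F : σ → MvPowerSeries σ R) (hF : ∀ i, 1 ≤ (F i).order)
    (e : σ →₀ ℕ) : (e.degree : ℕ∞) ≤ (monoPow F e).order := by
  induction e using Finsupp.induction_linear with
  | zero => simp
  | add e e' he he' =>
    rw [monoPow_add, map_add, Nat.cast_add]
    exact (add_le_add he he').trans le_order_mul
  | single i n =>
    rw [monoPow_single, Finsupp.degree_single]
    refine le_trans ?_ (le_order_pow n)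
    calc (n : ℕ∞) = n • (1 : ℕ∞) := by simp
      _ ≤ n • (F i).order := nsmul_le_nsmul_right (hF i) n

theorem le_order_pow_sub_pow {f g : MvPowerSeries σ R} (hf : 1 ≤ f.order) (hg : 1 ≤ g.order)
    (hfg : 2 ≤ (f - g).order) (n : ℕ) : ((n : ℕ∞) + 1) ≤ (f ^ n - g ^ n).order := by
  induction n with
  | zero => simp
  | succ n ih =>
    have h : f ^ (n + 1) - g ^ (n + 1) = (f ^ n - g ^ n) * f + g ^ n * (f - g) := by ring
    rw [h]
    refine le_trans ?_ min_order_le_add
    refine le_min ?_ ?_
    · refine le_trans ?_ le_order_mul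
      calc ((n + 1 : ℕ) : ℕ∞) + 1 = ((n : ℕ∞) + 1) + 1 := by push_cast; rfl
        _ ≤ (f ^ n - g ^ n).order + f.order := add_le_add ih hf
    · refine le_trans ?_ le_order_mul
      have h1 : (n : ℕ∞) ≤ (g ^ n).order := by
        refine le_trans ?_ (le_order_pow n)
        calc (n : ℕ∞) = n • (1 : ℕ∞) := by simp
          _ ≤ n • g.order := nsmul_le_nsmul_right hg n
      calc ((n + 1 : ℕ) : ℕ∞) + 1 = (n : ℕ∞) + 2 := by push_cast; ring
        _ ≤ (g ^ n).order + (f - g).order := add_le_add h1 hfg

/-- Key monomial estimate. -/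
theorem le_order_monoPow_sub (F G : σ → MvPowerSeries σ R)
    (hF : ∀ i, 1 ≤ (F i).order) (hG : ∀ i, 1 ≤ (G i).order)
    (hFG : ∀ i, 2 ≤ (F i - G i).order) (e : σ →₀ ℕ) :
    ((e.degree : ℕ∞) + 1) ≤ (monoPow F e - monoPow G e).order := by
  induction e using Finsupp.induction_linear with
  | zero => simp [monoPow_zero]
  | add e e' he he' =>
    rw [monoPow_add, monoPow_add, map_add, Nat.cast_add]
    have h : monoPow F e * monoPow F e' - monoPow G e * monoPow G e' =
        (monoPow F e - monoPow G e) * monoPow F e' +
          monoPow G e * (monoPow F e' - monoPow G e') := by ring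
    rw [h]
    refine le_trans ?_ min_order_le_add
    refine le_min ?_ ?_
    · refine le_trans ?_ le_order_mul
      calc ((e.degree : ℕ∞) + e'.degree) + 1 = ((e.degree : ℕ∞) + 1) + e'.degree := by ring
        _ ≤ _ := add_le_add he (le_order_monoPow F hF e')
    · refine le_trans ?_ le_order_mul
      calc ((e.degree : ℕ∞) + e'.degree) + 1 = (e.degree : ℕ∞) + ((e'.degree : ℕ∞) + 1) := by ring
        _ ≤ _ := add_le_add (le_order_monoPow G hG e) he'
  | single i n =>
    rw [monoPow_single, monoPow_single, Finsupp.degree_single]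
    exact le_order_pow_sub_pow (hF i) (hG i) (hFG i) n


section KeyLemma

variable [Finite σ]

theorem one_le_order_of_sub_X {f : MvPowerSeries σ R} {i : σ}
    (h : 2 ≤ (f - X i).order) : 1 ≤ f.order := by
  have h1 : f = (f - X i) + X i := by ring
  rw [h1]
  refine le_trans ?_ min_order_le_add
  refine le_min (le_trans (by norm_num) h) ?_
  rw [one_le_order_iff_constCoeff_eq_zero]
  simp

theorem one_le_order_X (i : σ) : 1 ≤ (X i : MvPowerSeries σ R).order := by
  rw [one_le_order_iff_constCoeff_eq_zero]; simp

theorem constantCoeff_of_sub_X {f : MvPowerSeries σ R} {i : σ}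
    (h : 2 ≤ (f - X i).order) : constantCoeff f = 0 :=
  one_le_order_iff_constCoeff_eq_zero.mp (one_le_order_of_sub_X h)

/-- Key lemma: a substitution tangent to the identity moves `g` only in higher order. -/
theorem le_order_sub_subst (F : σ → MvPowerSeries σ R) (hF : ∀ i, 2 ≤ (F i - X i).order)
    (g : MvPowerSeries σ R) : g.order + 1 ≤ (g - subst F g).order := by
  classical
  have hF0 : ∀ i, constantCoeff (F i) = 0 := fun i => constantCoeff_of_sub_X (hF i)
  have hsF : HasSubst F := hasSubst_of_constantCoeff_zero hF0
  have hsX : HasSubst (X : σ → MvPowerSeries σ R) :=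
    hasSubst_of_constantCoeff_zero (fun i => by simp)
  refine le_order fun m hm => ?_
  have hg : coeff m g =
      finsum (fun d => coeff d g • coeff m (d.prod fun s e => (X s : MvPowerSeries σ R) ^ e)) := by
    rw [← coeff_subst hsX, subst_self]; rfl
  rw [map_sub, hg, coeff_subst hsF, ← finsum_sub_distrib (coeff_subst_finite hsX g m)
    (coeff_subst_finite hsF g m)]
  refine finsum_eq_zero_of_forall_eq_zero fun d => ?_
  rw [← smul_sub, ← map_sub]
  by_cases hd : (d.degree : ℕ∞) < g.order
  · rw [coeff_of_lt_order hd, zero_smul]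
  · have hd := not_lt.mp hd
    have h1 : ((d.degree : ℕ∞) + 1) ≤ (monoPow X d - monoPow F d).order :=
      le_order_monoPow_sub X F one_le_order_X (fun i => one_le_order_of_sub_X (hF i))
        (fun i => by rw [← order_neg]; simpa using hF i) d
    have h2 : (m.degree : ℕ∞) < (monoPow X d - monoPow F d).order :=
      lt_of_lt_of_le hm (le_trans (add_le_add hd le_rfl) h1)
    have := coeff_of_lt_order h2
    unfold monoPow at this
    rw [this, smul_zero]


/-! ### Bijectivity of the substitution endomorphism: unipotent case -/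

section Unipotent

variable (F : σ → MvPowerSeries σ R) (hF : ∀ i, 2 ≤ (F i - X i).order)

/-- `N g = g - g(F)`. -/
def nilOp : MvPowerSeries σ R → MvPowerSeries σ R := fun g => g - subst F g

include hF

theorem hasSubst_of_sub_X : HasSubst F :=
  hasSubst_of_constantCoeff_zero fun i => constantCoeff_of_sub_X (hF i)

theorem nilOp_add (g h : MvPowerSeries σ R) : nilOp F (g + h) = nilOp F g + nilOp F h := by
  unfold nilOp
  rw [subst_add (hasSubst_of_sub_X F hF)]
  ring

theorem nilOp_sub (g h : MvPowerSeries σ R) : nilOp F (g - h) = nilOp F g - nilOp F h := by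
  unfold nilOp
  rw [subst_sub (hasSubst_of_sub_X F hF)]
  ring

theorem le_order_nilOp (g : MvPowerSeries σ R) : g.order + 1 ≤ (nilOp F g).order :=
  le_order_sub_subst F hF g

theorem le_order_nilOp_iterate (g : MvPowerSeries σ R) (k : ℕ) :
    g.order + k ≤ ((nilOp F)^[k] g).order := by
  induction k with
  | zero => simp
  | succ k ih =>
    rw [Function.iterate_succ_apply']
    refine le_trans ?_ (le_order_nilOp F hF _)
    calc g.order + ((k + 1 : ℕ) : ℕ∞) = (g.order + k) + 1 := by push_cast; ring
      _ ≤ _ := add_le_add ih le_rfl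

theorem le_order_subst_of_sub_X (g : MvPowerSeries σ R) : g.order ≤ (subst F g).order := by
  have h : subst F g = g - nilOp F g := by unfold nilOp; ring
  rw [h, sub_eq_add_neg]
  refine le_trans ?_ min_order_le_add
  refine le_min le_rfl ?_
  rw [order_neg]
  exact le_trans le_self_add (le_order_nilOp F hF g)

theorem subst_injective_of_sub_X : Function.Injective (subst F : MvPowerSeries σ R → _) := by
  intro g g' h
  have hs := hasSubst_of_sub_X F hF
  have h0 : subst F (g - g') = 0 := by rw [subst_sub hs, h, sub_self]
  have h1 : nilOp F (g - g') = g - g' := by unfold nilOp; rw [h0, sub_zero]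
  have h2 := le_order_nilOp F hF (g - g')
  rw [h1] at h2
  have h3 : (g - g').order = ⊤ := by
    by_contra hne
    obtain ⟨n, hn⟩ := ENat.ne_top_iff_exists.mp hne
    rw [← hn] at h2
    have : ((n + 1 : ℕ) : ℕ∞) ≤ n := by push_cast; exact h2
    have := Nat.cast_le.mp this
    omega
  exact sub_eq_zero.mp (order_eq_top_iff.mp h3)

/-- partial sums `Σ_{k<n} N^k f`. -/
def partSum (f : MvPowerSeries σ R) (n : ℕ) : MvPowerSeries σ R :=
  ∑ k ∈ Finset.range n, (nilOp F)^[k] f

omit hF in
theorem partSum_succ (f : MvPowerSeries σ R) (n : ℕ) :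
    partSum F f (n + 1) = partSum F f n + (nilOp F)^[n] f := by
  unfold partSum; rw [Finset.sum_range_succ]

theorem subst_partSum (f : MvPowerSeries σ R) (n : ℕ) :
    subst F (partSum F f n) = f - (nilOp F)^[n] f := by
  have hs := hasSubst_of_sub_X F hF
  induction n with
  | zero =>
    simp only [partSum, Finset.range_zero, Finset.sum_empty, Function.iterate_zero, id_eq, sub_self]
    rw [← substAlgHom_apply hs, map_zero]
  | succ n ih =>
    rw [partSum_succ, subst_add hs, ih, Function.iterate_succ_apply']
    unfold nilOp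
    ring

theorem coeff_partSum_eq (f : MvPowerSeries σ R) (e : σ →₀ ℕ) {m n : ℕ} (hm : e.degree < m)
    (hmn : m ≤ n) : coeff e (partSum F f n) = coeff e (partSum F f m) := by
  induction n, hmn using Nat.le_induction with
  | base => rfl
  | succ n hn ih =>
    rw [partSum_succ, map_add, ih, add_eq_left]
    refine coeff_of_lt_order ?_
    refine lt_of_lt_of_le ?_ (le_trans le_add_self (le_order_nilOp_iterate F hF f n))
    exact_mod_cast lt_of_lt_of_le hm hn

/-- the limit `Σ_k N^k f`. -/
def limSum (f : MvPowerSeries σ R) : MvPowerSeries σ R :=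
  fun e => coeff e (partSum F f (e.degree + 1))

theorem le_order_limSum_sub (f : MvPowerSeries σ R) (n : ℕ) :
    (n : ℕ∞) ≤ (limSum F f - partSum F f n).order := by
  refine le_order fun e he => ?_
  have he' : e.degree < n := by exact_mod_cast he
  rw [map_sub, sub_eq_zero]
  change coeff e (partSum F f (e.degree + 1)) = _
  exact (coeff_partSum_eq F hF f e (Nat.lt_succ_self _) he').symm

theorem subst_limSum (f : MvPowerSeries σ R) : subst F (limSum F f) = f := by
  have hs := hasSubst_of_sub_X F hF
  rw [← sub_eq_zero, ← order_eq_top_iff, ENat.eq_top_iff_forall_ge]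
  intro n
  have h : subst F (limSum F f) - f =
      subst F (limSum F f - partSum F f n) + (-(nilOp F)^[n] f) := by
    rw [subst_sub hs, subst_partSum F hF]; ring
  rw [h]
  refine le_trans ?_ min_order_le_add
  refine le_min ?_ ?_
  · exact le_trans (le_order_limSum_sub F hF f n) (le_order_subst_of_sub_X F hF _)
  · rw [order_neg]
    exact le_trans le_add_self (le_order_nilOp_iterate F hF f n)

theorem subst_bijective_of_sub_X : Function.Bijective (subst F : MvPowerSeries σ R → _) :=
  ⟨subst_injective_of_sub_X F hF, fun f => ⟨limSum F f, subst_limSum F hF f⟩⟩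

end Unipotent


end KeyLemma

/-! ### Degree one exponents -/

theorem exists_single_of_degree_eq_one {d : σ →₀ ℕ} (h : d.degree = 1) :
    ∃ k, d = Finsupp.single k 1 := by
  classical
  have hne : d ≠ 0 := by
    rintro rfl
    simp at h
  obtain ⟨i, hi⟩ : d.support.Nonempty := by
    rw [Finsupp.support_nonempty_iff]; exact hne
  have hle : Finsupp.single i 1 ≤ d := by
    simpa [Nat.one_le_iff_ne_zero] using hi
  obtain ⟨x, hx⟩ := le_iff_exists_add.mp hle
  have hx0 : x.degree = 0 := by
    have := congrArg Finsupp.degree hx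
    rw [map_add, Finsupp.degree_single, h] at this
    omega
  rw [Finsupp.degree_eq_zero_iff] at hx0
  exact ⟨i, by rw [hx, hx0, add_zero]⟩

theorem two_le_order_iff {f : MvPowerSeries σ R} :
    2 ≤ f.order ↔ constantCoeff f = 0 ∧ ∀ k, coeff (Finsupp.single k 1) f = 0 := by
  constructor
  · intro h
    refine ⟨?_, fun k => ?_⟩
    · rw [← coeff_zero_eq_constantCoeff_apply]
      exact coeff_of_lt_order (lt_of_lt_of_le (by simp) h)
    · refine coeff_of_lt_order (lt_of_lt_of_le ?_ h)
      rw [Finsupp.degree_single]; norm_num
  · rintro ⟨h0, h1⟩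
    refine le_order fun d hd => ?_
    have hd' : d.degree < 2 := by exact_mod_cast hd
    have : d.degree = 0 ∨ d.degree = 1 := by omega
    rcases this with h | h
    · rw [Finsupp.degree_eq_zero_iff] at h
      rw [h, coeff_zero_eq_constantCoeff_apply, h0]
    · obtain ⟨k, rfl⟩ := exists_single_of_degree_eq_one h
      exact h1 k

/-! ### Linear substitutions -/

section Linear

variable [Fintype σ] [DecidableEq σ]

/-- the Jacobian matrix at the origin (possibly rectangular). -/
def jac {τ : Type*} (F : τ → MvPowerSeries σ R) : Matrix τ σ R :=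
  fun i j => coeff (Finsupp.single j 1) (F i)

/-- the linear family `i ↦ Σ_j M i j • X_j`. -/
def linSub (M : Matrix σ σ R) : σ → MvPowerSeries σ R :=
  fun i => ∑ j, M i j • (X j : MvPowerSeries σ R)

theorem constantCoeff_linSub (M : Matrix σ σ R) (i : σ) : constantCoeff (linSub M i) = 0 := by
  simp [linSub]

theorem hasSubst_linSub (M : Matrix σ σ R) : HasSubst (linSub M) :=
  hasSubst_of_constantCoeff_zero (constantCoeff_linSub M)

theorem linSub_one : linSub (1 : Matrix σ σ R) = X := by
  funext i
  simp [linSub, Matrix.one_apply]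

/-- substituting a family into a linear family. -/
theorem subst_linSub (M : Matrix σ σ R) {F : σ → MvPowerSeries σ R} (hF : HasSubst F) (i : σ) :
    subst F (linSub M i) = ∑ j, M i j • F j := by
  unfold linSub
  rw [← substAlgHom_apply hF, map_sum]
  refine Finset.sum_congr rfl fun j _ => ?_
  rw [map_smul, substAlgHom_apply hF, subst_X hF]

theorem subst_linSub_linSub (M N : Matrix σ σ R) (i : σ) :
    subst (linSub N) (linSub M i) = linSub (M * N) i := by
  rw [subst_linSub M (hasSubst_linSub N)]
  unfold linSub
  simp_rw [Finset.smul_sum, smul_smul]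
  rw [Finset.sum_comm]
  refine Finset.sum_congr rfl fun k _ => ?_
  rw [← Finset.sum_smul, Matrix.mul_apply]

theorem subst_linSub_bijective {M N : Matrix σ σ R} (hMN : M * N = 1) (hNM : N * M = 1) :
    Function.Bijective (subst (linSub M) : MvPowerSeries σ R → MvPowerSeries σ R) := by
  have key : ∀ (A B : Matrix σ σ R), A * B = 1 → ∀ g : MvPowerSeries σ R,
      subst (linSub B) (subst (linSub A) g) = g := by
    intro A B hAB g
    rw [subst_comp_subst_apply (hasSubst_linSub A) (hasSubst_linSub B)]
    have : (fun s => subst (linSub B) (linSub A s)) = (X : σ → MvPowerSeries σ R) := by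
      funext s
      rw [subst_linSub_linSub, hAB, linSub_one]
    rw [this, subst_self]; rfl
  exact Function.bijective_iff_has_inverse.mpr
    ⟨subst (linSub N), fun g => key M N hMN g, fun g => key N M hNM g⟩

end Linear


section Main

variable [Fintype σ] [DecidableEq σ]

theorem coeff_single_linSub (M : Matrix σ σ R) (i k : σ) :
    coeff (Finsupp.single k 1) (linSub M i) = M i k := by
  unfold linSub
  rw [map_sum]
  simp only [map_smul, smul_eq_mul, coeff_X]
  rw [Finset.sum_eq_single k]
  · simp
  · intro j _ hjk
    have : Finsupp.single k 1 ≠ Finsupp.single j 1 := by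
      intro h
      exact hjk ((Finsupp.single_left_injective one_ne_zero) h).symm
    simp [this]
  · simp

/-- the normalised family `J⁻¹ F`. -/
def normFam (K : Matrix σ σ R) (F : σ → MvPowerSeries σ R) : σ → MvPowerSeries σ R :=
  fun i => ∑ j, K i j • F j

theorem two_le_order_normFam_sub_X {F : σ → MvPowerSeries σ R}
    (hF0 : ∀ i, constantCoeff (F i) = 0) {K : Matrix σ σ R} (hK : K * jac F = 1) (i : σ) :
    2 ≤ (normFam K F i - X i).order := by
  rw [two_le_order_iff]
  refine ⟨?_, fun k => ?_⟩
  · simp [normFam, hF0]
  · unfold normFam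
    rw [map_sub, map_sum]
    simp only [map_smul, smul_eq_mul]
    have h1 : ∑ j, K i j * coeff (Finsupp.single k 1) (F j) = (K * jac F) i k := by
      rw [Matrix.mul_apply]; rfl
    rw [h1, hK, coeff_X, Matrix.one_apply]
    by_cases hik : i = k
    · subst hik; simp
    · have : Finsupp.single k 1 ≠ Finsupp.single i 1 := by
        intro h
        exact hik ((Finsupp.single_left_injective one_ne_zero) h).symm
      simp [hik, this]

/-- **Formal inverse function theorem**, bijectivity form. -/
theorem subst_bijective {F : σ → MvPowerSeries σ R} (hF0 : ∀ i, constantCoeff (F i) = 0)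
    {K : Matrix σ σ R} (hK : K * jac F = 1) (hK' : jac F * K = 1) :
    Function.Bijective (subst F : MvPowerSeries σ R → MvPowerSeries σ R) := by
  have hsF : HasSubst F := hasSubst_of_constantCoeff_zero hF0
  have hN := two_le_order_normFam_sub_X hF0 hK
  have hsN : HasSubst (normFam K F) := hasSubst_of_sub_X _ hN
  have hcomp : (subst F : MvPowerSeries σ R → MvPowerSeries σ R) =
      (subst (normFam K F)) ∘ (subst (linSub (jac F))) := by
    funext g
    rw [Function.comp_apply, subst_comp_subst_apply (hasSubst_linSub _) hsN]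
    congr 1
    funext s
    rw [subst_linSub _ hsN]
    unfold normFam
    simp_rw [Finset.smul_sum, smul_smul]
    rw [Finset.sum_comm]
    have : ∀ k, ∑ j, (jac F s j * K j k) • F k = ((jac F * K) s k) • F k := by
      intro k
      rw [← Finset.sum_smul, Matrix.mul_apply]
    simp_rw [this, hK', Matrix.one_apply]
    simp
  rw [hcomp]
  exact (subst_bijective_of_sub_X _ hN).comp (subst_linSub_bijective hK' hK)

/-- **Formal inverse function theorem**: existence of a two-sided compositional inverse. -/
theorem exists_inverse {F : σ → MvPowerSeries σ R} (hF0 : ∀ i, constantCoeff (F i) = 0)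
    {K : Matrix σ σ R} (hK : K * jac F = 1) (hK' : jac F * K = 1) :
    ∃ G : σ → MvPowerSeries σ R, (∀ i, constantCoeff (G i) = 0) ∧
      (∀ i, subst F (G i) = X i) ∧ (∀ i, subst G (F i) = X i) := by
  have hsF : HasSubst F := hasSubst_of_constantCoeff_zero hF0
  have hbij := subst_bijective hF0 hK hK'
  choose G hG using fun i => hbij.2 (X i : MvPowerSeries σ R)
  have hG0 : ∀ i, constantCoeff (G i) = 0 := by
    intro i
    by_contra hne
    have h1 : constantCoeff (subst F (G i)) = constantCoeff (G i) := by
      have hdec : G i = C (constantCoeff (G i)) + (G i - C (constantCoeff (G i))) := by ring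
      have h0 : constantCoeff (G i - C (constantCoeff (G i))) = 0 := by simp
      conv_lhs => rw [hdec]
      rw [subst_add hsF, map_add, constantCoeff_subst_eq_zero hsF hF0 h0, add_zero, subst_C]
      simp
    rw [hG i] at h1
    simp at h1
    exact hne h1.symm
  have hsG : HasSubst G := hasSubst_of_constantCoeff_zero hG0
  refine ⟨G, hG0, hG, fun i => ?_⟩
  -- Φ_F ∘ Φ_G = id
  have h1 : ∀ g : MvPowerSeries σ R, subst F (subst G g) = g := by
    intro g
    rw [subst_comp_subst_apply hsG hsF]
    have : (fun s => subst F (G s)) = (X : σ → MvPowerSeries σ R) := funext hG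
    rw [this, subst_self]; rfl
  apply hbij.1
  rw [h1, subst_X hsF]

end Main

end Fermat.Agent.T1.IFT50
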