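/-
T1 / IFT50 (helper50): points of `Spf R⟦σ⟧` with values in a nilpotent ideal, analytic maps between
them, the inverse function theorem on points and the kernel lemma
(`ker (b) = im (θ)` for an "exact" pair of analytic maps).
-/
import Mathlib
import Fermat.Agent.S53.EvalNilp
import Fermat.Agent.T1.IFT50.Formal

set_option autoImplicit false
set_option linter.unusedSectionVars false

noncomputable section

namespace Fermat.Agent.T1.IFT50

open MvPowerSeries Fermat.Agent.S53

variable {R : Type*} [CommRing R] {A : Type*} [CommRing A] [Algebra R A]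

/-! ### Polynomials without constant term take values in the ideal -/

theorem aeval_mem_of_constantCoeff_eq_zero {σ : Type*} (I : Ideal A) (a : σ → A)
    (ha : ∀ i, a i ∈ I) (p : MvPolynomial σ R) (hp : MvPolynomial.constantCoeff p = 0) :
    MvPolynomial.aeval a p ∈ I := by
  classical
  rw [MvPolynomial.aeval_def, MvPolynomial.eval₂_eq]
  refine Ideal.sum_mem _ fun d hd => ?_
  have hd0 : d ≠ 0 := by
    rintro rfl
    rw [MvPolynomial.mem_support_iff] at hd
    exact hd (by simpa [MvPolynomial.constantCoeff_eq] using hp)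
  obtain ⟨i, hi⟩ : ∃ i, d i ≠ 0 := by
    by_contra! h
    exact hd0 (Finsupp.ext h)
  refine Ideal.mul_mem_left _ _ ?_
  have hi' : i ∈ d.support := Finsupp.mem_support_iff.mpr hi
  rw [← Finset.mul_prod_erase _ _ hi']
  refine Ideal.mul_mem_right _ _ ?_
  exact Ideal.pow_mem_of_mem _ (ha i) _ (Nat.pos_of_ne_zero hi)

/-! ### Evaluation at tuples in a nilpotent ideal -/

section Eval

variable {σ τ υ : Type*} [Finite σ] [Finite τ] [Finite υ]
variable (I : Ideal A) {n : ℕ} (hI : I ^ n = ⊥)

include hI in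
theorem span_range_pow_eq_bot (a : σ → I) :
    Ideal.span (Set.range fun i => (a i : A)) ^ n = ⊥ := by
  rw [eq_bot_iff, ← hI]
  refine Ideal.pow_right_mono ?_ n
  rw [Ideal.span_le]
  rintro _ ⟨i, rfl⟩
  exact (a i).2

/-- evaluation of power series at a tuple in the nilpotent ideal `I`. -/
def evalI (a : σ → I) : MvPowerSeries σ R →ₐ[R] A :=
  evalNilp (fun i => (a i : A)) n (span_range_pow_eq_bot I hI a)

@[simp]
theorem evalI_X (a : σ → I) (i : σ) : evalI (R := R) I hI a (X i) = a i :=
  evalNilp_X _ n _ i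

theorem evalI_mem (a : σ → I) {f : MvPowerSeries σ R} (hf : constantCoeff f = 0) :
    evalI I hI a f ∈ I := by
  unfold evalI
  rw [evalNilp_apply]
  refine aeval_mem_of_constantCoeff_eq_zero I _ (fun i => (a i).2) _ ?_
  rw [MvPolynomial.constantCoeff_eq, ← MvPolynomial.coeff_coe]
  by_cases hn : n = 0
  · subst hn
    have : truncTotal (R := R) (σ := σ) 0 f = 0 := by
      ext d
      rw [coeff_truncTotal_eq_zero _ (Nat.zero_le _)]; simp
    rw [this]; simp
  · rw [MvPolynomial.coeff_coe,
      coeff_truncTotal _ (by simpa using Nat.pos_of_ne_zero hn), coeff_zero_eq_constantCoeff_apply,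
      hf]

theorem eq_evalI (φ : MvPowerSeries σ R →ₐ[R] A) (a : σ → I) (hφ : ∀ i, φ (X i) = a i) :
    φ = evalI I hI a :=
  eq_evalNilp φ _ n _ hφ

/-- the analytic map `I^σ → I^τ` defined by a family of power series without constant term. -/
def apply (F : τ → MvPowerSeries σ R) (hF : ∀ k, constantCoeff (F k) = 0) (a : σ → I) : τ → I :=
  fun k => ⟨evalI I hI a (F k), evalI_mem I hI a (hF k)⟩

@[simp]
theorem coe_apply (F : τ → MvPowerSeries σ R) (hF : ∀ k, constantCoeff (F k) = 0) (a : σ → I)
    (k : τ) : (apply I hI F hF a k : A) = evalI I hI a (F k) := rfl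

/-- composition of families. -/
def compFam (G : υ → MvPowerSeries τ R) (F : τ → MvPowerSeries σ R) : υ → MvPowerSeries σ R :=
  fun l => subst F (G l)

theorem constantCoeff_compFam (G : υ → MvPowerSeries τ R) (F : τ → MvPowerSeries σ R)
    (hG : ∀ l, constantCoeff (G l) = 0) (hF : ∀ k, constantCoeff (F k) = 0) (l : υ) :
    constantCoeff (compFam G F l) = 0 :=
  constantCoeff_subst_eq_zero (hasSubst_of_constantCoeff_zero hF) hF (hG l)

theorem evalI_subst (F : τ → MvPowerSeries σ R) (hF : ∀ k, constantCoeff (F k) = 0) (a : σ → I)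
    (g : MvPowerSeries τ R) :
    evalI I hI a (subst F g) = evalI I hI (apply I hI F hF a) g := by
  have hs : HasSubst F := hasSubst_of_constantCoeff_zero hF
  have := eq_evalI I hI ((evalI I hI a).comp (substAlgHom hs)) (apply I hI F hF a) (fun k => by
    rw [AlgHom.comp_apply, substAlgHom_X]; rfl)
  rw [← this, AlgHom.comp_apply, substAlgHom_apply]

theorem apply_compFam (G : υ → MvPowerSeries τ R) (F : τ → MvPowerSeries σ R)
    (hG : ∀ l, constantCoeff (G l) = 0) (hF : ∀ k, constantCoeff (F k) = 0) (a : σ → I) :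
    apply I hI (compFam G F) (constantCoeff_compFam G F hG hF) a =
      apply I hI G hG (apply I hI F hF a) := by
  funext l
  apply Subtype.ext
  rw [coe_apply, coe_apply]
  exact evalI_subst I hI F hF a (G l)

theorem apply_X (a : σ → I) :
    apply I hI (X : σ → MvPowerSeries σ R) (fun i => by simp) a = a := by
  funext i
  apply Subtype.ext
  rw [coe_apply, evalI_X]

theorem apply_congr {F F' : τ → MvPowerSeries σ R} (h : F = F')
    (hF : ∀ k, constantCoeff (F k) = 0) (a : σ → I) :
    apply I hI F hF a = apply I hI F' (h ▸ hF) a := by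
  subst h; rfl

end Eval

/-! ### Inverse function theorem on points -/

section IFT

variable {σ : Type*} [Fintype σ] [DecidableEq σ]
variable (I : Ideal A) {n : ℕ} (hI : I ^ n = ⊥)

/-- **Inverse function theorem on points.** -/
theorem apply_bijective {F : σ → MvPowerSeries σ R} (hF0 : ∀ i, constantCoeff (F i) = 0)
    {K : Matrix σ σ R} (hK : K * jac F = 1) (hK' : jac F * K = 1) :
    Function.Bijective (apply I hI F hF0) := by
  obtain ⟨G, hG0, hFG, hGF⟩ := exists_inverse hF0 hK hK'
  refine Function.bijective_iff_has_inverse.mpr ⟨apply I hI G hG0, fun a => ?_, fun a => ?_⟩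
  · -- G(F(a)) = a
    rw [← apply_compFam I hI G F hG0 hF0 a]
    have : compFam G F = X := funext hFG
    rw [apply_congr I hI this, apply_X]
  · rw [← apply_compFam I hI F G hF0 hG0 a]
    have : compFam F G = X := funext hGF
    rw [apply_congr I hI this, apply_X]

end IFT

/-! ### The kernel lemma -/

section Kernel

variable {σ ρ τ : Type*} [Fintype σ] [DecidableEq σ] [Fintype ρ] [DecidableEq ρ] [Finite τ]
variable (I : Ideal A) {n : ℕ} (hI : I ^ n = ⊥)

/-- the linear family attached to a rectangular matrix. -/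
def linFam (P : Matrix ρ σ R) : ρ → MvPowerSeries σ R :=
  fun r => ∑ j, P r j • (X j : MvPowerSeries σ R)

theorem constantCoeff_linFam (P : Matrix ρ σ R) (r : ρ) : constantCoeff (linFam P r) = 0 := by
  simp [linFam]

theorem coeff_single_linFam (P : Matrix ρ σ R) (r : ρ) (k : σ) :
    coeff (Finsupp.single k 1) (linFam P r) = P r k := by
  unfold linFam
  rw [map_sum]
  simp only [map_smul, smul_eq_mul, coeff_X]
  rw [Finset.sum_eq_single k]
  · simp
  · intro j _ hjk
    have : Finsupp.single k 1 ≠ Finsupp.single j 1 := by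
      intro h
      exact hjk ((Finsupp.single_left_injective one_ne_zero) h).symm
    simp [this]
  · simp

theorem evalI_linFam (P : Matrix ρ σ R) (a : σ → I) (r : ρ) :
    evalI I hI a (linFam P r) = ∑ j, P r j • (a j : A) := by
  unfold linFam
  rw [map_sum]
  refine Finset.sum_congr rfl fun j _ => ?_
  rw [map_smul, evalI_X]

/-- the family `P ∘ θ`. -/
def linComp (P : Matrix ρ σ R) (θ : σ → MvPowerSeries ρ R) : ρ → MvPowerSeries ρ R :=
  fun r => ∑ j, P r j • θ j

theorem constantCoeff_linComp (P : Matrix ρ σ R) (θ : σ → MvPowerSeries ρ R)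
    (hθ0 : ∀ i, constantCoeff (θ i) = 0) (r : ρ) : constantCoeff (linComp P θ r) = 0 := by
  simp [linComp, hθ0]

theorem jac_linComp (P : Matrix ρ σ R) (θ : σ → MvPowerSeries ρ R) :
    jac (linComp P θ) = P * jac θ := by
  funext r s
  rw [Matrix.mul_apply]
  show coeff (Finsupp.single s 1) (∑ j, P r j • θ j) = ∑ j, P r j * coeff (Finsupp.single s 1) (θ j)
  rw [map_sum]
  simp only [map_smul, smul_eq_mul]

theorem evalI_linComp (P : Matrix ρ σ R) (θ : σ → MvPowerSeries ρ R) (s : ρ → I) (r : ρ) :
    evalI I hI s (linComp P θ r) = ∑ j, P r j • evalI I hI s (θ j) := by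
  unfold linComp
  rw [map_sum]
  refine Finset.sum_congr rfl fun j _ => ?_
  rw [map_smul]

/-- the combined family `(P, b)` indexed through `e : ρ ⊕ τ ≃ σ`. -/
def sumFam (e : ρ ⊕ τ ≃ σ) (P : Matrix ρ σ R) (b : τ → MvPowerSeries σ R) :
    σ → MvPowerSeries σ R :=
  fun i => Sum.elim (linFam P) b (e.symm i)

theorem constantCoeff_sumFam (e : ρ ⊕ τ ≃ σ) (P : Matrix ρ σ R) (b : τ → MvPowerSeries σ R)
    (hb0 : ∀ k, constantCoeff (b k) = 0) (i : σ) : constantCoeff (sumFam e P b i) = 0 := by
  unfold sumFam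
  rcases e.symm i with r | k
  · exact constantCoeff_linFam P r
  · exact hb0 k

/-- the Jacobian of the combined family. -/
def sumMat (e : ρ ⊕ τ ≃ σ) (P : Matrix ρ σ R) (B : Matrix τ σ R) : Matrix σ σ R :=
  fun i j => Sum.elim (fun r => P r j) (fun k => B k j) (e.symm i)

theorem jac_sumFam (e : ρ ⊕ τ ≃ σ) (P : Matrix ρ σ R) (b : τ → MvPowerSeries σ R) :
    jac (sumFam e P b) = sumMat e P (jac b) := by
  funext i j
  unfold jac sumFam sumMat
  rcases e.symm i with r | k
  · exact coeff_single_linFam P r j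
  · rfl

/-- **Kernel lemma.**  Let `b : I^σ → I^τ` and `θ : I^ρ → I^σ` be analytic with `b ∘ θ = 0` on
points, and assume there is a matrix `P` (a linear retraction candidate) such that `(P, db)` is
invertible and `P · dθ` is invertible.  Then every zero of `b` is `θ(s)` for a unique `s`. -/
theorem existsUnique_of_apply_eq_zero (e : ρ ⊕ τ ≃ σ)
    (b : τ → MvPowerSeries σ R) (hb0 : ∀ k, constantCoeff (b k) = 0)
    (θ : σ → MvPowerSeries ρ R) (hθ0 : ∀ i, constantCoeff (θ i) = 0)
    (P : Matrix ρ σ R)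
    {K : Matrix σ σ R} (hK : K * sumMat e P (jac b) = 1) (hK' : sumMat e P (jac b) * K = 1)
    {K2 : Matrix ρ ρ R} (hK2 : K2 * (P * jac θ) = 1) (hK2' : (P * jac θ) * K2 = 1)
    (hbθ : ∀ s : ρ → I, ∀ k, apply I hI b hb0 (apply I hI θ hθ0 s) k = 0)
    (a : σ → I) (ha : ∀ k, apply I hI b hb0 a k = 0) :
    ∃! s : ρ → I, apply I hI θ hθ0 s = a := by
  have hΛ0 := constantCoeff_sumFam e P b hb0
  have hΛ : Function.Bijective (apply I hI (sumFam e P b) hΛ0) :=
    apply_bijective I hI hΛ0 (by rw [jac_sumFam]; exact hK) (by rw [jac_sumFam]; exact hK')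
  have hQ0 := constantCoeff_linComp P θ hθ0
  have hQ : Function.Bijective (apply I hI (linComp P θ) hQ0) :=
    apply_bijective I hI hQ0 (by rw [jac_linComp]; exact hK2) (by rw [jac_linComp]; exact hK2')
  -- the target value `P a`
  let c : ρ → I := fun r => ⟨∑ j, P r j • (a j : A),
    Ideal.sum_mem _ fun j _ => Submodule.smul_of_tower_mem _ _ (a j).2⟩
  have hQθ : ∀ s : ρ → I, ∀ r, (apply I hI (linComp P θ) hQ0 s r : A) =
      ∑ j, P r j • (apply I hI θ hθ0 s j : A) := by
    intro s r
    rw [coe_apply, evalI_linComp]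
    rfl
  have hΛval : ∀ (x : σ → I) (i : σ), (apply I hI (sumFam e P b) hΛ0 x i : A) =
      Sum.elim (fun r => ∑ j, P r j • (x j : A)) (fun k => (apply I hI b hb0 x k : A))
        (e.symm i) := by
    intro x i
    rw [coe_apply]
    unfold sumFam
    rcases e.symm i with r | k
    · exact evalI_linFam I hI P x r
    · rfl
  have key : ∀ s : ρ → I, apply I hI (linComp P θ) hQ0 s = c → apply I hI θ hθ0 s = a := by
    intro s hs
    apply hΛ.1
    funext i
    apply Subtype.ext
    rw [hΛval, hΛval]
    rcases e.symm i with r | k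
    · simp only [Sum.elim_inl]
      rw [← hQθ s r, hs]
    · simp only [Sum.elim_inr]
      rw [hbθ s k, ha k]
  obtain ⟨s, hs⟩ := hQ.2 c
  refine ⟨s, key s hs, fun s' hs' => ?_⟩
  apply hQ.1
  rw [hs]
  funext r
  apply Subtype.ext
  rw [hQθ s' r, hs']

end Kernel

end Fermat.Agent.T1.IFT50
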