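/-
T1 / IFT50 (helper50): points of `Spf R⟦σ⟧` with values in an ideal `I` of an `I`-adically complete
ring `S` (e.g. `S = 𝒪_L`, `I = 𝔪_L`), analytic maps, inverse function theorem and kernel lemma.
Also: naturality of the nilpotent evaluation, and compatibility of the adic evaluation with the
evaluations modulo `I ^ n`.
-/
import Mathlib
import Fermat.Agent.T1.IFT50.Points

set_option autoImplicit false
set_option linter.unusedSectionVars false

noncomputable section

namespace Fermat.Agent.T1.IFT50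

open MvPowerSeries Fermat.Agent.S53

variable {R : Type*} [CommRing R]

/-! ### Naturality of the nilpotent evaluation -/

section Naturality

variable {A A' : Type*} [CommRing A] [Algebra R A] [CommRing A'] [Algebra R A']
variable {σ τ : Type*} [Finite σ] [Finite τ]
variable (I : Ideal A) {n : ℕ} (hI : I ^ n = ⊥) (I' : Ideal A') {n' : ℕ} (hI' : I' ^ n' = ⊥)

/-- push a point forward along an algebra map respecting the ideals. -/
def mapPt (φ : A →ₐ[R] A') (hφ : ∀ x ∈ I, φ x ∈ I') (a : σ → I) : σ → I' :=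
  fun i => ⟨φ (a i), hφ _ (a i).2⟩

theorem evalI_mapPt (φ : A →ₐ[R] A') (hφ : ∀ x ∈ I, φ x ∈ I') (a : σ → I)
    (f : MvPowerSeries σ R) :
    evalI I' hI' (mapPt I I' φ hφ a) f = φ (evalI I hI a f) := by
  have := eq_evalI I' hI' (φ.comp (evalI I hI a)) (mapPt I I' φ hφ a) (fun i => by
    rw [AlgHom.comp_apply, evalI_X]; rfl)
  rw [← this, AlgHom.comp_apply]

theorem apply_mapPt (φ : A →ₐ[R] A') (hφ : ∀ x ∈ I, φ x ∈ I')
    (F : τ → MvPowerSeries σ R) (hF : ∀ k, constantCoeff (F k) = 0) (a : σ → I) :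
    apply I' hI' F hF (mapPt I I' φ hφ a) = mapPt I I' φ hφ (apply I hI F hF a) := by
  funext k
  apply Subtype.ext
  rw [coe_apply, evalI_mapPt I hI I' hI' φ hφ a (F k)]
  rfl

end Naturality

/-! ### Adic evaluation -/

section Adic

variable {S : Type*} [CommRing S] [Algebra R S] (I : Ideal S)

/-- the image of `I` in `S ⧸ I ^ n`. -/
def idealQ (n : ℕ) : Ideal (S ⧸ I ^ n) := I.map (Ideal.Quotient.mk (I ^ n))

theorem idealQ_pow (n : ℕ) : idealQ I n ^ n = ⊥ := by
  unfold idealQ
  rw [← Ideal.map_pow, Ideal.map_quotient_self]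

variable {σ τ υ : Type*} [Finite σ] [Finite τ] [Finite υ]

/-- reduction of a point modulo `I ^ n`. -/
def redPt (n : ℕ) (a : σ → I) : σ → idealQ I n :=
  fun i => ⟨Ideal.Quotient.mk (I ^ n) (a i), Ideal.mem_map_of_mem _ (a i).2⟩

/-- evaluation modulo `I ^ n`. -/
def evalQ (n : ℕ) (a : σ → I) : MvPowerSeries σ R →ₐ[R] S ⧸ I ^ n :=
  evalI (idealQ I n) (idealQ_pow I n) (redPt I n a)

theorem evalQ_X (n : ℕ) (a : σ → I) (i : σ) :
    evalQ (R := R) I n a (X i) = Ideal.Quotient.mk (I ^ n) (a i) := by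
  unfold evalQ
  rw [evalI_X]; rfl

theorem evalQ_compat (a : σ → I) {m n : ℕ} (hle : m ≤ n) :
    (Ideal.Quotient.factorₐ R (Ideal.pow_le_pow_right hle)).comp (evalQ (R := R) I n a) =
      evalQ I m a := by
  unfold evalQ
  refine eq_evalI (idealQ I m) (idealQ_pow I m) _ (redPt I m a) (fun i => ?_)
  rw [AlgHom.comp_apply, evalI_X]
  rfl

variable [IsAdicComplete I S]

/-- evaluation of power series at a tuple in `I`, `S` being `I`-adically complete. -/
def evalA (a : σ → I) : MvPowerSeries σ R →ₐ[R] S :=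
  IsAdicComplete.liftAlgHom I (fun n => evalQ I n a) (fun hle => evalQ_compat I a hle)

theorem mk_evalA (n : ℕ) (a : σ → I) (f : MvPowerSeries σ R) :
    Ideal.Quotient.mk (I ^ n) (evalA I a f) = evalQ I n a f := by
  unfold evalA
  exact IsAdicComplete.mk_liftAlgHom I _ _ n f

omit [Finite σ] in
theorem eq_of_forall_mk_eq {x y : S}
    (h : ∀ n, Ideal.Quotient.mk (I ^ n) x = Ideal.Quotient.mk (I ^ n) y) : x = y := by
  rw [← sub_eq_zero]
  refine IsHausdorff.haus (IsAdicComplete.toIsHausdorff (I := I) (M := S)) _ fun n => ?_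
  rw [SModEq.zero, smul_eq_mul, Ideal.mul_top, ← Ideal.Quotient.eq_zero_iff_mem, map_sub, h n,
    sub_self]

@[simp]
theorem evalA_X (a : σ → I) (i : σ) : evalA (R := R) I a (X i) = a i := by
  refine eq_of_forall_mk_eq I fun n => ?_
  rw [mk_evalA, evalQ_X]

theorem evalA_mem (a : σ → I) {f : MvPowerSeries σ R} (hf : constantCoeff f = 0) :
    evalA I a f ∈ I := by
  have h1 := mk_evalA (R := R) I 1 a f
  have h2 : evalQ I 1 a f ∈ idealQ I 1 := evalI_mem _ _ _ hf
  have h3 : idealQ I 1 = ⊥ := by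
    have := idealQ_pow I 1
    simpa using this
  rw [h3, Ideal.mem_bot] at h2
  rw [h2, Ideal.Quotient.eq_zero_iff_mem, pow_one] at h1
  exact h1

theorem eq_evalA (φ : MvPowerSeries σ R →ₐ[R] S) (a : σ → I) (hφ : ∀ i, φ (X i) = a i) :
    φ = evalA I a := by
  refine IsAdicComplete.algHom_ext I fun n => ?_
  have h1 : (Ideal.Quotient.mkₐ R (I ^ n)).comp φ = evalQ I n a := by
    refine eq_evalI (idealQ I n) (idealQ_pow I n) _ (redPt I n a) (fun i => ?_)
    rw [AlgHom.comp_apply, hφ]; rfl
  have h2 : (Ideal.Quotient.mkₐ R (I ^ n)).comp (evalA I a) = evalQ I n a := by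
    refine eq_evalI (idealQ I n) (idealQ_pow I n) _ (redPt I n a) (fun i => ?_)
    rw [AlgHom.comp_apply, evalA_X]; rfl
  rw [h1, h2]

/-- the analytic map `I^σ → I^τ` defined by a family of power series without constant term. -/
def applyA (F : τ → MvPowerSeries σ R) (hF : ∀ k, constantCoeff (F k) = 0) (a : σ → I) : τ → I :=
  fun k => ⟨evalA I a (F k), evalA_mem I a (hF k)⟩

@[simp]
theorem coe_applyA (F : τ → MvPowerSeries σ R) (hF : ∀ k, constantCoeff (F k) = 0) (a : σ → I)
    (k : τ) : (applyA I F hF a k : S) = evalA I a (F k) := rfl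

/-- compatibility with reduction modulo `I ^ n`. -/
theorem redPt_applyA (n : ℕ) (F : τ → MvPowerSeries σ R) (hF : ∀ k, constantCoeff (F k) = 0)
    (a : σ → I) :
    redPt I n (applyA I F hF a) =
      apply (idealQ I n) (idealQ_pow I n) F hF (redPt I n a) := by
  funext k
  apply Subtype.ext
  rw [coe_apply]
  exact mk_evalA I n a (F k)

theorem evalA_subst (F : τ → MvPowerSeries σ R) (hF : ∀ k, constantCoeff (F k) = 0) (a : σ → I)
    (g : MvPowerSeries τ R) :
    evalA I a (subst F g) = evalA I (applyA I F hF a) g := by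
  have hs : HasSubst F := hasSubst_of_constantCoeff_zero hF
  have := eq_evalA I ((evalA I a).comp (substAlgHom hs)) (applyA I F hF a) (fun k => by
    rw [AlgHom.comp_apply, substAlgHom_X]; rfl)
  rw [← this, AlgHom.comp_apply, substAlgHom_apply]

theorem applyA_compFam (G : υ → MvPowerSeries τ R) (F : τ → MvPowerSeries σ R)
    (hG : ∀ l, constantCoeff (G l) = 0) (hF : ∀ k, constantCoeff (F k) = 0) (a : σ → I) :
    applyA I (compFam G F) (constantCoeff_compFam G F hG hF) a =
      applyA I G hG (applyA I F hF a) := by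
  funext l
  apply Subtype.ext
  rw [coe_applyA, coe_applyA]
  exact evalA_subst I F hF a (G l)

theorem applyA_X (a : σ → I) :
    applyA I (X : σ → MvPowerSeries σ R) (fun i => by simp) a = a := by
  funext i
  apply Subtype.ext
  rw [coe_applyA, evalA_X]

theorem applyA_congr {F F' : τ → MvPowerSeries σ R} (h : F = F')
    (hF : ∀ k, constantCoeff (F k) = 0) (a : σ → I) :
    applyA I F hF a = applyA I F' (h ▸ hF) a := by
  subst h; rfl

end Adic

/-! ### Inverse function theorem and kernel lemma, adic version -/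

section AdicIFT

variable {S : Type*} [CommRing S] [Algebra R S] (I : Ideal S) [IsAdicComplete I S]
variable {σ ρ τ : Type*} [Fintype σ] [DecidableEq σ] [Fintype ρ] [DecidableEq ρ] [Finite τ]

/-- **Inverse function theorem on points**, adic version. -/
theorem applyA_bijective {F : σ → MvPowerSeries σ R} (hF0 : ∀ i, constantCoeff (F i) = 0)
    {K : Matrix σ σ R} (hK : K * jac F = 1) (hK' : jac F * K = 1) :
    Function.Bijective (applyA I F hF0) := by
  obtain ⟨G, hG0, hFG, hGF⟩ := exists_inverse hF0 hK hK'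
  refine Function.bijective_iff_has_inverse.mpr ⟨applyA I G hG0, fun a => ?_, fun a => ?_⟩
  · rw [← applyA_compFam I G F hG0 hF0 a]
    have : compFam G F = X := funext hFG
    rw [applyA_congr I this, applyA_X]
  · rw [← applyA_compFam I F G hF0 hG0 a]
    have : compFam F G = X := funext hGF
    rw [applyA_congr I this, applyA_X]

theorem evalA_linFam (P : Matrix ρ σ R) (a : σ → I) (r : ρ) :
    evalA I a (linFam P r) = ∑ j, P r j • (a j : S) := by
  unfold linFam
  rw [map_sum]
  refine Finset.sum_congr rfl fun j _ => ?_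
  rw [map_smul, evalA_X]

theorem evalA_linComp (P : Matrix ρ σ R) (θ : σ → MvPowerSeries ρ R) (s : ρ → I) (r : ρ) :
    evalA I s (linComp P θ r) = ∑ j, P r j • evalA I s (θ j) := by
  unfold linComp
  rw [map_sum]
  refine Finset.sum_congr rfl fun j _ => ?_
  rw [map_smul]

/-- **Kernel lemma**, adic version. -/
theorem existsUnique_of_applyA_eq_zero (e : ρ ⊕ τ ≃ σ)
    (b : τ → MvPowerSeries σ R) (hb0 : ∀ k, constantCoeff (b k) = 0)
    (θ : σ → MvPowerSeries ρ R) (hθ0 : ∀ i, constantCoeff (θ i) = 0)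
    (P : Matrix ρ σ R)
    {K : Matrix σ σ R} (hK : K * sumMat e P (jac b) = 1) (hK' : sumMat e P (jac b) * K = 1)
    {K2 : Matrix ρ ρ R} (hK2 : K2 * (P * jac θ) = 1) (hK2' : (P * jac θ) * K2 = 1)
    (hbθ : ∀ s : ρ → I, ∀ k, applyA I b hb0 (applyA I θ hθ0 s) k = 0)
    (a : σ → I) (ha : ∀ k, applyA I b hb0 a k = 0) :
    ∃! s : ρ → I, applyA I θ hθ0 s = a := by
  have hΛ0 := constantCoeff_sumFam e P b hb0
  have hΛ : Function.Bijective (applyA I (sumFam e P b) hΛ0) :=
    applyA_bijective I hΛ0 (by rw [jac_sumFam]; exact hK) (by rw [jac_sumFam]; exact hK')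
  have hQ0 := constantCoeff_linComp P θ hθ0
  have hQ : Function.Bijective (applyA I (linComp P θ) hQ0) :=
    applyA_bijective I hQ0 (by rw [jac_linComp]; exact hK2) (by rw [jac_linComp]; exact hK2')
  let c : ρ → I := fun r => ⟨∑ j, P r j • (a j : S),
    Ideal.sum_mem _ fun j _ => Submodule.smul_of_tower_mem _ _ (a j).2⟩
  have hQθ : ∀ s : ρ → I, ∀ r, (applyA I (linComp P θ) hQ0 s r : S) =
      ∑ j, P r j • (applyA I θ hθ0 s j : S) := by
    intro s r
    rw [coe_applyA, evalA_linComp]
    rfl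
  have hΛval : ∀ (x : σ → I) (i : σ), (applyA I (sumFam e P b) hΛ0 x i : S) =
      Sum.elim (fun r => ∑ j, P r j • (x j : S)) (fun k => (applyA I b hb0 x k : S))
        (e.symm i) := by
    intro x i
    rw [coe_applyA]
    unfold sumFam
    rcases e.symm i with r | k
    · exact evalA_linFam I P x r
    · rfl
  have key : ∀ s : ρ → I, applyA I (linComp P θ) hQ0 s = c → applyA I θ hθ0 s = a := by
    intro s hs
    apply hΛ.1
    funext i
    apply Subtype.ext
    rw [hΛval, hΛval]
    rcases e.symm i with r | k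
    · simp only [Sum.elim_inl]
      rw [← hQθ s r, hs]
    · simp only [Sum.elim_inr]
      rw [hbθ s k, ha k]
  obtain ⟨s, hs⟩ := hQ.2 c
  refine ⟨s, key s hs, fun s' hs' => ?_⟩
  apply hQ.1
  rw [hs]
  funext r
  apply Subtype.ext
  rw [hQθ s' r, hs']

end AdicIFT

end Fermat.Agent.T1.IFT50
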