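/-
T1 / IFT50 (helper50): Jacobian bookkeeping.  Chain rule for `jac`, and invertibility of matrices over
a local ring detected in the residue field.
-/
import Mathlib
import Fermat.Agent.T1.IFT50.Points

set_option autoImplicit false
set_option linter.unusedSectionVars false

noncomputable section

namespace Fermat.Agent.T1.IFT50

open MvPowerSeries

variable {R : Type*} [CommRing R]

section ChainRule

variable {σ τ υ : Type*} [Finite σ] [Fintype τ] [DecidableEq τ]

/-- substitution kills order-`≥ 2` parts at the level of linear coefficients. -/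
theorem two_le_order_subst (F : τ → MvPowerSeries σ R) (hF : ∀ k, constantCoeff (F k) = 0)
    {g : MvPowerSeries τ R} (hg : 2 ≤ g.order) : 2 ≤ (subst F g).order := by
  have hs : HasSubst F := hasSubst_of_constantCoeff_zero hF
  refine le_trans ?_ (le_order_subst hs g)
  have h1 : (1 : ℕ∞) ≤ ⨅ i, (F i).order :=
    le_iInf fun i => one_le_order_iff_constCoeff_eq_zero.mpr (hF i)
  calc (2 : ℕ∞) = 1 * 2 := by norm_num
    _ ≤ (⨅ i, (F i).order) * g.order := mul_le_mul' h1 hg

/-- a power series without constant term is its linear part plus something of order `≥ 2`. -/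
theorem two_le_order_sub_linear (g : MvPowerSeries τ R) (hg : constantCoeff g = 0) :
    2 ≤ (g - ∑ k, coeff (Finsupp.single k 1) g • (X k : MvPowerSeries τ R)).order := by
  rw [two_le_order_iff]
  refine ⟨by simp [hg], fun k => ?_⟩
  rw [map_sub, map_sum]
  simp only [map_smul, smul_eq_mul, coeff_X]
  rw [Finset.sum_eq_single k]
  · simp
  · intro j _ hjk
    have : Finsupp.single k 1 ≠ Finsupp.single j 1 := by
      intro h
      exact hjk ((Finsupp.single_left_injective one_ne_zero) h).symm
    simp [this]
  · simp

/-- **Chain rule** at the origin. -/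
theorem jac_compFam (G : υ → MvPowerSeries τ R) (F : τ → MvPowerSeries σ R)
    (hG : ∀ l, constantCoeff (G l) = 0) (hF : ∀ k, constantCoeff (F k) = 0) :
    jac (compFam G F) = jac G * jac F := by
  have hs : HasSubst F := hasSubst_of_constantCoeff_zero hF
  funext l j
  rw [Matrix.mul_apply]
  show coeff (Finsupp.single j 1) (subst F (G l)) =
    ∑ k, coeff (Finsupp.single k 1) (G l) * coeff (Finsupp.single j 1) (F k)
  set lin : MvPowerSeries τ R :=
    ∑ k, coeff (Finsupp.single k 1) (G l) • (X k : MvPowerSeries τ R) with hlin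
  have hdec : G l = lin + (G l - lin) := by ring
  have h2 : 2 ≤ (subst F (G l - lin)).order :=
    two_le_order_subst F hF (two_le_order_sub_linear (G l) (hG l))
  have h3 : coeff (Finsupp.single j 1) (subst F (G l - lin)) = 0 :=
    (two_le_order_iff.mp h2).2 j
  have h4 : subst F lin = ∑ k, coeff (Finsupp.single k 1) (G l) • F k := by
    rw [hlin, ← substAlgHom_apply hs, map_sum]
    refine Finset.sum_congr rfl fun k _ => ?_
    rw [map_smul, substAlgHom_apply hs, subst_X hs]
  conv_lhs => rw [hdec]
  rw [subst_add hs, map_add, h3, add_zero, h4, map_sum]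
  simp only [map_smul, smul_eq_mul]

end ChainRule

section LocalRing

variable {σ : Type*} [Fintype σ] [DecidableEq σ] [IsLocalRing R]

/-- over a local ring a square matrix is invertible as soon as its reduction is. -/
theorem exists_inverse_of_residue_det_ne_zero (M : Matrix σ σ R)
    (h : (M.map (IsLocalRing.residue R)).det ≠ 0) :
    ∃ K : Matrix σ σ R, K * M = 1 ∧ M * K = 1 := by
  have h1 : IsUnit M.det := by
    by_contra hnu
    apply h
    rw [← RingHom.mapMatrix_apply, ← RingHom.map_det]
    exact (IsLocalRing.residue_eq_zero_iff _).mpr ((IsLocalRing.mem_maximalIdeal _).mpr hnu)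
  have h2 : IsUnit M := (Matrix.isUnit_iff_isUnit_det M).mpr h1
  obtain ⟨u, rfl⟩ := h2
  exact ⟨(u⁻¹ : (Matrix σ σ R)ˣ), by simp, by simp⟩

end LocalRing

end Fermat.Agent.T1.IFT50
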